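/-
P-MW row 794 (helper83), LPF-NEWTON, Mathlib-only part: expansion of a polynomial in the Newton
basis `N_b = ∏_{b' < b} (X - z_b')`, and congruence of the coefficients modulo an ideal
containing the nodes.
-/
import Mathlib

set_option autoImplicit false

noncomputable section

open Polynomial

namespace Fermat.Agent.H83.MW

variable {A : Type} [CommRing A]

/-- the Newton polynomial `∏_{b' < b} (X - z_b')` -/
def newtonPoly (z : ℕ → A) (b : ℕ) : A[X] := ∏ k ∈ Finset.range b, (X - C (z k))

theorem newtonPoly_monic (z : ℕ → A) (b : ℕ) : (newtonPoly z b).Monic :=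
  monic_prod_of_monic _ _ fun k _ => monic_X_sub_C (z k)

theorem newtonPoly_natDegree [Nontrivial A] (z : ℕ → A) (b : ℕ) :
    (newtonPoly z b).natDegree = b := by
  unfold newtonPoly
  rw [natDegree_prod_of_monic _ _ fun k _ => monic_X_sub_C (z k)]
  simp

theorem newtonPoly_coeff_self (z : ℕ → A) (b : ℕ) : (newtonPoly z b).coeff b = 1 := by
  nontriviality A
  have h := (newtonPoly_monic z b).coeff_natDegree
  rw [newtonPoly_natDegree] at h
  exact h

theorem newtonPoly_coeff_of_lt (z : ℕ → A) {b m : ℕ} (h : b < m) :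
    (newtonPoly z b).coeff m = 0 := by
  nontriviality A
  apply coeff_eq_zero_of_natDegree_lt
  rw [newtonPoly_natDegree]
  exact h

theorem newtonPoly_eval (z : ℕ → A) (b : ℕ) (x : A) :
    (newtonPoly z b).eval x = ∏ k ∈ Finset.range b, (x - z k) := by
  unfold newtonPoly
  rw [eval_prod]
  simp

/-- modulo an ideal containing the nodes, the Newton polynomials are the monomials -/
theorem newtonPoly_map (I : Ideal A) (z : ℕ → A) (hz : ∀ k, z k ∈ I) (b : ℕ) :
    (newtonPoly z b).map (Ideal.Quotient.mk I) = X ^ b := by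
  unfold newtonPoly
  rw [Polynomial.map_prod]
  have : ∀ k ∈ Finset.range b, (X - C (z k)).map (Ideal.Quotient.mk I) = (X : (A ⧸ I)[X]) := by
    intro k _
    rw [Polynomial.map_sub, map_X, map_C, Ideal.Quotient.eq_zero_iff_mem.mpr (hz k), C_0,
      sub_zero]
  rw [Finset.prod_congr rfl this]
  simp

/-- Expansion of a polynomial of degree `< n` in the Newton basis. -/
theorem exists_newton_expansion (z : ℕ → A) (n : ℕ) (P : A[X]) (hP : P.degree < n) :
    ∃ s : ℕ → A, P = ∑ b ∈ Finset.range n, C (s b) * newtonPoly z b := by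
  induction n generalizing P with
  | zero =>
    refine ⟨fun _ => 0, ?_⟩
    have : P = 0 := by
      rw [← degree_eq_bot]
      have h0 : P.degree < 0 := by exact_mod_cast hP
      exact (Nat.WithBot.lt_zero_iff).mp h0
    simp [this]
  | succ n ih =>
    set a := P.coeff n with ha
    have hP' : (P - C a * newtonPoly z n).degree < n := by
      rw [degree_lt_iff_coeff_zero]
      intro m hm
      rw [coeff_sub, coeff_C_mul]
      rcases Nat.eq_or_lt_of_le hm with h | h
      · rw [← h, newtonPoly_coeff_self, mul_one, sub_self]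
      · have h1 : P.coeff m = 0 := by
          apply coeff_eq_zero_of_degree_lt
          refine lt_of_lt_of_le hP ?_
          exact_mod_cast h
        rw [h1, newtonPoly_coeff_of_lt z h, mul_zero, sub_zero]
    obtain ⟨s, hs⟩ := ih (P - C a * newtonPoly z n) hP'
    refine ⟨fun b => if b = n then a else s b, ?_⟩
    rw [Finset.sum_range_succ]
    beta_reduce
    rw [if_pos rfl]
    have h2 : ∑ b ∈ Finset.range n, C (if b = n then a else s b) * newtonPoly z b =
        ∑ b ∈ Finset.range n, C (s b) * newtonPoly z b := by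
      refine Finset.sum_congr rfl fun b hb => ?_
      rw [if_neg (Finset.mem_range.mp hb).ne]
    rw [h2, ← hs]
    ring

/-- **Monomial basis to Newton basis** (`ℕ`-indexed form). -/
theorem exists_newton_coeffs (I : Ideal A) (z r : ℕ → A) (hz : ∀ k, z k ∈ I) (n : ℕ) :
    ∃ s : ℕ → A, (∀ b, b < n → s b - r b ∈ I) ∧
      ∀ x : A, ∑ i ∈ Finset.range n, r i * x ^ i =
        ∑ b ∈ Finset.range n, s b * ∏ k ∈ Finset.range b, (x - z k) := by
  set P : A[X] := ∑ i ∈ Finset.range n, C (r i) * X ^ i with hPdef
  have hP : P.degree < n := by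
    rw [degree_lt_iff_coeff_zero]
    intro m hm
    rw [hPdef, finsetSum_coeff]
    refine Finset.sum_eq_zero fun i hi => ?_
    rw [coeff_C_mul, coeff_X_pow, if_neg, mul_zero]
    have := Finset.mem_range.mp hi
    omega
  obtain ⟨s, hs⟩ := exists_newton_expansion z n P hP
  refine ⟨s, ?_, ?_⟩
  · intro b hb
    have h1 := congrArg (fun Q : A[X] => (Q.map (Ideal.Quotient.mk I)).coeff b) hs
    simp only [hPdef, Polynomial.map_sum, Polynomial.map_mul, map_C, Polynomial.map_pow, map_X,
      newtonPoly_map I z hz, finsetSum_coeff, coeff_C_mul, coeff_X_pow] at h1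
    simp only [mul_ite, mul_one, mul_zero] at h1
    rw [Finset.sum_ite_eq (Finset.range n) b, Finset.sum_ite_eq (Finset.range n) b,
      if_pos (Finset.mem_range.mpr hb), if_pos (Finset.mem_range.mpr hb)] at h1
    rw [← Ideal.Quotient.eq_zero_iff_mem, map_sub, sub_eq_zero]
    exact h1.symm
  · intro x
    have h1 := congrArg (fun Q : A[X] => Q.eval x) hs
    simp only [hPdef, eval_finsetSum, eval_mul, eval_C, eval_pow, eval_X, newtonPoly_eval] at h1
    exact h1

end Fermat.Agent.H83.MW
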