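/-
P-MW row 794 (helper83), LPF-NEWTON: `newtonConv : Fermat.Agent.H89.MW.NewtonConvStatement`
(from the monomial basis to the Newton basis, with congruent coefficients).
-/
import Fermat.Agent.H89.MW.LpfInterfaces
import Fermat.Agent.H83.MW.NewtonPoly

set_option autoImplicit false

noncomputable section

namespace Fermat.Agent.H83.MW

/-- **[LPF-NEWTON]** -/
theorem newtonConv : Fermat.Agent.H89.MW.NewtonConvStatement := by
  intro A _ I n z r hz
  classical
  let z' : ℕ → A := fun k => if h : k < n then z ⟨k, h⟩ else 0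
  let r' : ℕ → A := fun k => if h : k < n then r ⟨k, h⟩ else 0
  have hz'v : ∀ b : Fin n, z' (b : ℕ) = z b := fun b => by
    simp only [z', dif_pos b.2, Fin.eta]
  have hr'v : ∀ b : Fin n, r' (b : ℕ) = r b := fun b => by
    simp only [r', dif_pos b.2, Fin.eta]
  have hz' : ∀ k, z' k ∈ I := by
    intro k
    by_cases h : k < n
    · simp only [z', dif_pos h]
      exact hz _
    · simp only [z', dif_neg h]
      exact I.zero_mem
  obtain ⟨s, hs1, hs2⟩ := exists_newton_coeffs I z' r' hz' n
  refine ⟨fun b => s b, ?_, ?_⟩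
  · intro i
    have h := hs1 i i.2
    rw [hr'v] at h
    exact h
  · intro x
    have h1 : ∑ i : Fin n, r i * x ^ (i : ℕ) = ∑ i ∈ Finset.range n, r' i * x ^ i := by
      rw [← Fin.sum_univ_eq_sum_range (fun i => r' i * x ^ i) n]
      refine Finset.sum_congr rfl fun i _ => ?_
      rw [hr'v]
    have h2 : ∀ b : Fin n,
        ∏ b' ∈ Finset.univ.filter (fun b' : Fin n => b' < b), (x - z b') =
          ∏ k ∈ Finset.range b, (x - z' k) := by
      intro b
      refine Finset.prod_bij (fun b' _ => (b' : ℕ)) ?_ ?_ ?_ ?_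
      · intro b' hb'
        rw [Finset.mem_filter] at hb'
        exact Finset.mem_range.mpr hb'.2
      · intro a₁ _ a₂ _ h
        exact Fin.ext h
      · intro k hk
        have hk' := Finset.mem_range.mp hk
        refine ⟨⟨k, lt_trans hk' b.2⟩, ?_, rfl⟩
        rw [Finset.mem_filter]
        exact ⟨Finset.mem_univ _, hk'⟩
      · intro b' _
        rw [hz'v]
    rw [h1, hs2 x,
      ← Fin.sum_univ_eq_sum_range (fun b => s b * ∏ k ∈ Finset.range b, (x - z' k)) n]
    refine Finset.sum_congr rfl fun b _ => ?_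
    rw [h2 b]

end Fermat.Agent.H83.MW
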